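import Mathlib

/-!
# Project ES, piece P-d (part 1): a maximum principle on `Γ \ ℍ` with cusps

A holomorphic function `Φ` on the upper half plane whose real part is invariant under a finite
index subgroup `Γ ≤ SL(2, ℤ)` (in the strong form `Φ ∘ γ - Φ ∈ i ℝ`), and such that `Φ ∘ δ` has a
limit at `i∞` for every `δ ∈ SL(2, ℤ)`, is constant.
-/

set_option autoImplicit false

open Filter Topology Complex
open UpperHalfPlane hiding I
open scoped MatrixGroups Manifold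

namespace Fermat.Agent.S21.P.MaxPrinciple

/-- `w ↦ δ • w` is holomorphic on `ℍ` for `δ ∈ SL(2, ℤ)`. -/
theorem mdiff_sl_smul (δ : SL(2, ℤ)) : MDiff (fun w : ℍ => δ • w) := by
  have h : 0 < ((δ : GL (Fin 2) ℝ)).det.val := by simp
  exact UpperHalfPlane.mdifferentiable_smul h

/-- Composition of a holomorphic function with the action of `δ ∈ SL(2, ℤ)`. -/
theorem mdiff_comp_sl_smul {f : ℍ → ℂ} (hf : MDiff f) (δ : SL(2, ℤ)) :
    MDiff (fun w : ℍ => f (δ • w)) :=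
  hf.comp (mdiff_sl_smul δ)

/-- `exp ∘ f` is holomorphic if `f` is. -/
theorem mdiff_cexp {f : ℍ → ℂ} (hf : MDiff f) : MDiff (fun w : ℍ => Complex.exp (f w)) := by
  rw [UpperHalfPlane.mdifferentiable_iff] at hf ⊢
  exact fun z hz => ((hf z hz).cexp : _)

/-- A function on `ℍ` invariant under `T ^ n` gives an `n`-periodic function on `ℂ`. -/
theorem periodic_comp_ofComplex_of_T_pow {Ψ : ℍ → ℂ} (n : ℕ)
    (hΨ : ∀ w : ℍ, Ψ (ModularGroup.T ^ (n : ℤ) • w) = Ψ w) :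
    Function.Periodic (Ψ ∘ ofComplex) ((n : ℝ) : ℂ) := by
  intro w
  by_cases hw : 0 < im w
  · have hw' : 0 < im (w + ((n : ℝ) : ℂ)) := by simp [hw]
    simp only [Function.comp_apply, ofComplex_apply_of_im_pos hw', ofComplex_apply_of_im_pos hw]
    rw [← hΨ ⟨w, hw⟩]
    congr 1
    ext
    rw [ModularGroup.coe_T_zpow_smul_eq]
    push_cast
    rfl
  · have hw0 : im w ≤ 0 := not_lt.mp hw
    have hw' : im (w + ((n : ℝ) : ℂ)) ≤ 0 := by simpa using hw0
    simp only [Function.comp_apply, ofComplex_apply_of_im_nonpos hw',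
      ofComplex_apply_of_im_nonpos hw0]

/-- `w ↦ T ^ n • w` tends to `i∞` at `i∞`. -/
theorem tendsto_T_zpow_smul_atImInfty (n : ℤ) :
    Tendsto (fun w : ℍ => ModularGroup.T ^ n • w) atImInfty atImInfty := by
  rw [atImInfty, tendsto_comap_iff]
  have : (UpperHalfPlane.im ∘ fun w : ℍ => ModularGroup.T ^ n • w) = UpperHalfPlane.im := by
    funext w
    exact ModularGroup.im_T_zpow_smul w n
  rw [this]
  exact tendsto_comap

/-- If `exp ∘ Φ` is constant on `ℍ` and `Φ` is holomorphic, then `Φ` is constant. -/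
theorem const_of_cexp_const {Φ : ℍ → ℂ} (hΦ : MDiff Φ) {c : ℂ}
    (hc : ∀ z : ℍ, Complex.exp (Φ z) = c) : ∃ C : ℂ, ∀ z : ℍ, Φ z = C := by
  rw [UpperHalfPlane.mdifferentiable_iff] at hΦ
  have hopen : IsOpen {z : ℂ | 0 < z.im} := isOpen_upperHalfPlaneSet
  have hconn : IsPreconnected {z : ℂ | 0 < z.im} :=
    (Complex.isConnected_of_upperHalfPlane (r := 0) subset_rfl
      (fun z (hz : 0 < z.im) => (le_of_lt hz : 0 ≤ z.im))).isPreconnected
  have hderiv : Set.EqOn (deriv (Φ ∘ ofComplex)) 0 {z : ℂ | 0 < z.im} := by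
    intro z hz
    have hd : DifferentiableAt ℂ (Φ ∘ ofComplex) z := (hΦ z hz).differentiableAt (hopen.mem_nhds hz)
    have h1 : HasDerivAt (fun w => Complex.exp ((Φ ∘ ofComplex) w))
        (Complex.exp ((Φ ∘ ofComplex) z) * deriv (Φ ∘ ofComplex) z) z := hd.hasDerivAt.cexp
    have h2 : (fun w => Complex.exp ((Φ ∘ ofComplex) w)) =ᶠ[𝓝 z] fun _ => c := by
      filter_upwards [hopen.mem_nhds hz] with w hw
      simp only [Function.comp_apply, ofComplex_apply_of_im_pos hw]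
      exact hc _
    have h3 : HasDerivAt (fun w => Complex.exp ((Φ ∘ ofComplex) w)) 0 z :=
      (hasDerivAt_const z c).congr_of_eventuallyEq h2
    have h4 := h1.unique h3
    rcases mul_eq_zero.mp h4 with h5 | h5
    · exact absurd h5 (Complex.exp_ne_zero _)
    · exact h5
  refine ⟨(Φ ∘ ofComplex) (UpperHalfPlane.I : ℍ), fun z => ?_⟩
  have := hopen.is_const_of_deriv_eq_zero hconn hΦ hderiv z.im_pos (UpperHalfPlane.I : ℍ).im_pos
  rw [← this]
  simp

/-- Points of the standard fundamental domain have imaginary part at least `1/2`. -/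
theorem half_le_im_of_mem_fd {w : ℍ} (hw : w ∈ ModularGroup.fd) : 1 / 2 ≤ w.im := by
  have h1 := ModularGroup.three_le_four_mul_im_sq_of_mem_fd hw
  have h2 := w.im_pos
  by_contra h
  rw [not_le] at h
  nlinarith

/-- The norm of the `q`-parameter of a point with imaginary part `≥ 1/2`. -/
theorem norm_qParam_le_of_half_le_im {n : ℕ} (hn : 0 < n) {w : ℍ} (hw : 1 / 2 ≤ w.im) :
    ‖Function.Periodic.qParam (n : ℝ) (w : ℂ)‖ ≤ Real.exp (-Real.pi / n) := by
  rw [Function.Periodic.norm_qParam]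
  apply Real.exp_le_exp.mpr
  have hn' : (0 : ℝ) < n := by exact_mod_cast hn
  rw [div_le_div_iff_of_pos_right hn']
  have : (w : ℂ).im = w.im := rfl
  rw [this]
  nlinarith [Real.pi_pos]

/-- **Maximum principle on `Γ \ ℍ` with cusps.** -/
theorem exists_const_of_im_cocycle (Γ : Subgroup SL(2, ℤ)) [Γ.FiniteIndex] (n : ℕ) (hn : 0 < n)
    (hT : ∀ δ : SL(2, ℤ), δ * ModularGroup.T ^ (n : ℤ) * δ⁻¹ ∈ Γ)
    (Φ : ℍ → ℂ) (hΦ : MDiff Φ)
    (hinv : ∀ γ ∈ Γ, ∃ c : ℝ, ∀ z : ℍ, Φ (γ • z) - Φ z = c * I)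
    (hlim : ∀ δ : SL(2, ℤ), ∃ L : ℂ, Tendsto (fun w : ℍ => Φ (δ • w)) atImInfty (𝓝 L)) :
    ∃ C : ℂ, ∀ z : ℍ, Φ z = C := by
  have hn' : (0 : ℝ) < n := by exact_mod_cast hn
  -- `E = exp ∘ Φ`
  set E : ℍ → ℂ := fun z => Complex.exp (Φ z) with hE
  have hEmd : MDiff E := mdiff_cexp hΦ
  have hEnorm : ∀ γ ∈ Γ, ∀ z, ‖E (γ • z)‖ = ‖E z‖ := by
    intro γ hγ z
    obtain ⟨c, hc⟩ := hinv γ hγ
    have h1 : Φ (γ • z) = Φ z + c * I := by rw [← hc z]; ring
    simp only [hE, h1, Complex.norm_exp]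
    simp
  -- the translates `Ψ δ = E ∘ δ`
  set Ψ : SL(2, ℤ) → ℍ → ℂ := fun δ w => E (δ • w) with hΨ
  have hΨmd : ∀ δ, MDiff (Ψ δ) := fun δ => mdiff_comp_sl_smul hEmd δ
  have hΨlim : ∀ δ, ∃ L : ℂ, L ≠ 0 ∧ Tendsto (Ψ δ) atImInfty (𝓝 L) := by
    intro δ
    obtain ⟨L, hL⟩ := hlim δ
    exact ⟨Complex.exp L, Complex.exp_ne_zero L, (Complex.continuous_exp.tendsto L).comp hL⟩
  have hΨper : ∀ δ w, Ψ δ (ModularGroup.T ^ (n : ℤ) • w) = Ψ δ w := by
    intro δ w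
    obtain ⟨c, hc⟩ := hinv _ (hT δ)
    have h1 : ∀ w, Ψ δ (ModularGroup.T ^ (n : ℤ) • w) = Complex.exp (c * I) * Ψ δ w := by
      intro w
      have h2 : δ • (ModularGroup.T ^ (n : ℤ) • w)
          = (δ * ModularGroup.T ^ (n : ℤ) * δ⁻¹) • (δ • w) := by
        rw [← mul_smul, ← mul_smul, inv_mul_cancel_right]
      have h3 : Φ ((δ * ModularGroup.T ^ (n : ℤ) * δ⁻¹) • (δ • w)) = Φ (δ • w) + c * I := by
        rw [← hc (δ • w)]; ring
      show Complex.exp (Φ (δ • (ModularGroup.T ^ (n : ℤ) • w))) = _ * Complex.exp (Φ (δ • w))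
      rw [h2, h3, Complex.exp_add]
      ring
    obtain ⟨L, hL0, hL⟩ := hΨlim δ
    have h4 : Tendsto (fun w => Ψ δ (ModularGroup.T ^ (n : ℤ) • w)) atImInfty (𝓝 L) :=
      hL.comp (tendsto_T_zpow_smul_atImInfty n)
    have h5 : Tendsto (fun w => Ψ δ (ModularGroup.T ^ (n : ℤ) • w)) atImInfty
        (𝓝 (Complex.exp (c * I) * L)) := by
      simp only [h1]
      exact hL.const_mul _
    have h6 : L = Complex.exp (c * I) * L := tendsto_nhds_unique h4 h5
    have h7 : Complex.exp (c * I) = 1 := by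
      have h8 : 1 * L = Complex.exp (c * I) * L := by rw [one_mul]; exact h6
      exact (mul_right_cancel₀ hL0 h8).symm
    rw [h1, h7, one_mul]
  have hΨperC : ∀ δ, Function.Periodic (Ψ δ ∘ ofComplex) ((n : ℝ) : ℂ) :=
    fun δ => periodic_comp_ofComplex_of_T_pow n (hΨper δ)
  have hΨbdd : ∀ δ, IsBoundedAtImInfty (Ψ δ) := by
    intro δ
    obtain ⟨L, -, hL⟩ := hΨlim δ
    exact hL.isBigO_one ℝ
  -- the cusp functions
  set g : SL(2, ℤ) → ℂ → ℂ := fun δ => UpperHalfPlane.cuspFunction (n : ℝ) (Ψ δ) with hg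
  have hgdiff : ∀ δ, DifferentiableOn ℂ (g δ) (Metric.ball 0 1) := fun δ =>
    UpperHalfPlane.differentiableOn_cuspFunction_ball hn' (hΨperC δ) (hΨmd δ) (hΨbdd δ)
  have hgeq : ∀ δ (w : ℍ), g δ (Function.Periodic.qParam (n : ℝ) (w : ℂ)) = Ψ δ w := fun δ w =>
    UpperHalfPlane.eq_cuspFunction w hn'.ne' (hΨperC δ)
  -- the radius
  set r₀ : ℝ := Real.exp (-Real.pi / n) with hr₀
  have hr₀1 : r₀ < 1 := by
    rw [hr₀, Real.exp_lt_one_iff]
    exact div_neg_of_neg_of_pos (neg_neg_of_pos Real.pi_pos) hn'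
  have hr₀0 : 0 ≤ r₀ := (Real.exp_pos _).le
  have hsub : Metric.closedBall (0 : ℂ) r₀ ⊆ Metric.ball 0 1 := Metric.closedBall_subset_ball hr₀1
  -- maxima on the closed ball
  have hmax : ∀ δ, ∃ q ∈ Metric.closedBall (0 : ℂ) r₀,
      IsMaxOn (fun q => ‖g δ q‖) (Metric.closedBall (0 : ℂ) r₀) q := by
    intro δ
    refine (isCompact_closedBall (0 : ℂ) r₀).exists_isMaxOn ⟨0, Metric.mem_closedBall_self hr₀0⟩ ?_
    exact ((hgdiff δ).continuousOn.mono hsub).norm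
  choose q hq hqmax using hmax
  -- coset representatives
  set rep : SL(2, ℤ) ⧸ Γ → SL(2, ℤ) := fun x => (Quotient.out x)⁻¹ with hrep
  obtain ⟨x₀, hx₀⟩ := Finite.exists_max (fun x : SL(2, ℤ) ⧸ Γ => ‖g (rep x) (q (rep x))‖)
  -- the global bound
  have hbound : ∀ z : ℍ, ‖E z‖ ≤ ‖g (rep x₀) (q (rep x₀))‖ := by
    intro z
    obtain ⟨g₁, hg₁⟩ := ModularGroup.exists_smul_mem_fd z
    set w : ℍ := g₁ • z with hw
    set x : SL(2, ℤ) ⧸ Γ := ((g₁ : SL(2, ℤ)) : SL(2, ℤ) ⧸ Γ) with hx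
    have hγ : g₁⁻¹ * Quotient.out x ∈ Γ := by
      have : ((Quotient.out x : SL(2, ℤ)) : SL(2, ℤ) ⧸ Γ) = ((g₁ : SL(2, ℤ)) : SL(2, ℤ) ⧸ Γ) :=
        QuotientGroup.out_eq' x
      exact QuotientGroup.eq.mp this.symm
    have hz : z = (g₁⁻¹ * Quotient.out x) • (rep x • w) := by
      rw [hrep, hw, ← mul_smul, ← mul_smul]
      simp
    have h1 : ‖E z‖ = ‖Ψ (rep x) w‖ := by
      conv_lhs => rw [hz]
      exact hEnorm _ hγ _
    rw [h1, ← hgeq (rep x) w]
    have h2 : Function.Periodic.qParam (n : ℝ) (w : ℂ) ∈ Metric.closedBall (0 : ℂ) r₀ := by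
      rw [mem_closedBall_zero_iff]
      exact norm_qParam_le_of_half_le_im hn (half_le_im_of_mem_fd hg₁)
    exact (hqmax (rep x) h2).trans (hx₀ x)
  -- the maximum modulus principle
  have hismax : IsMaxOn (norm ∘ g (rep x₀)) (Metric.ball 0 1) (q (rep x₀)) := by
    intro q' hq'
    show ‖g (rep x₀) q'‖ ≤ ‖g (rep x₀) (q (rep x₀))‖
    by_cases h0 : q' = 0
    · subst h0
      exact hqmax (rep x₀) (Metric.mem_closedBall_self hr₀0)
    · have hq'1 : ‖q'‖ < 1 := mem_ball_zero_iff.mp hq'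
      have him := Function.Periodic.im_invQParam_pos_of_norm_lt_one hn' hq'1 h0
      have h1 := hgeq (rep x₀) ⟨_, him⟩
      rw [UpperHalfPlane.coe_mk, Function.Periodic.qParam_right_inv hn'.ne' h0] at h1
      rw [h1]
      exact hbound _
  have hconst := Complex.eqOn_of_isPreconnected_of_isMaxOn_norm
    (convex_ball (0 : ℂ) 1).isPreconnected Metric.isOpen_ball (hgdiff (rep x₀))
    (hsub (hq (rep x₀))) hismax
  set c : ℂ := g (rep x₀) (q (rep x₀)) with hc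
  have hΨc : ∀ w : ℍ, Ψ (rep x₀) w = c := by
    intro w
    rw [← hgeq (rep x₀) w]
    exact hconst (mem_ball_zero_iff.mpr (Function.Periodic.norm_qParam_lt_one hn' w.im_pos))
  have hEc : ∀ z : ℍ, E z = c := by
    intro z
    have := hΨc ((rep x₀)⁻¹ • z)
    simpa [hΨ] using this
  exact const_of_cexp_const hΦ hEc

end Fermat.Agent.S21.P.MaxPrinciple
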