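import Mathlib
import Fermat.Prelude.Def_ModularCurve_PeriodHomPair
import Fermat.Agent.S21.P.MaxPrinciple

/-!
# Project ES, piece P-d (part 2): injectivity of the Eichler–Shimura pair map

Given the existence of equivariant primitives and linearity of the period map (as hypotheses),
the map `periodHomPair N` is injective.
-/

set_option autoImplicit false

open Filter Topology Complex CongruenceSubgroup ModularCurve ModularCurve.Period
open UpperHalfPlane hiding I
open scoped MatrixGroups Manifold ComplexConjugate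

namespace Fermat.Agent.S21.P.Inject

open Fermat.Agent.S21.P.MaxPrinciple

/-- The anti-holomorphic involution `z ↦ -conj z` of the upper half plane. -/
noncomputable def sigmaH (z : ℍ) : ℍ :=
  ⟨-conj (z : ℂ), by simpa using z.im_pos⟩

@[simp] theorem coe_sigmaH (z : ℍ) : ((sigmaH z : ℍ) : ℂ) = -conj (z : ℂ) := rfl

@[simp] theorem im_sigmaH (z : ℍ) : (sigmaH z).im = z.im := by
  show (-conj (z : ℂ)).im = (z : ℂ).im
  simp

theorem tendsto_sigmaH_atImInfty : Tendsto sigmaH atImInfty atImInfty := by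
  rw [atImInfty, tendsto_comap_iff]
  have : (UpperHalfPlane.im ∘ sigmaH) = UpperHalfPlane.im := funext im_sigmaH
  rw [this]
  exact tendsto_comap

/-- `jConjSL γ ∘ σ = σ ∘ γ`. -/
theorem jConjSL_smul_sigmaH (γ : SL(2, ℤ)) (z : ℍ) :
    (jConjSL γ) • (sigmaH z) = sigmaH (γ • z) := by
  ext
  rw [UpperHalfPlane.coe_specialLinearGroup_apply, coe_sigmaH, coe_sigmaH,
    UpperHalfPlane.coe_specialLinearGroup_apply]
  simp only [jConjSL_coe, jConjMat_apply_zero_zero, jConjMat_apply_zero_one,
    jConjMat_apply_one_zero, jConjMat_apply_one_one, map_div₀, map_add, map_mul,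
    Complex.conj_ofReal, map_neg, eq_intCast, Complex.ofReal_neg]
  rw [← neg_div]
  congr 1 <;> ring

/-- The holomorphic function `z ↦ conj (F (-conj z))`. -/
noncomputable def starFun (F : ℍ → ℂ) : ℍ → ℂ := fun z => conj (F (sigmaH z))

theorem mdiff_starFun {F : ℍ → ℂ} (hF : MDiff F) : MDiff (starFun F) := by
  rw [UpperHalfPlane.mdifferentiable_iff] at hF ⊢
  have hopen : IsOpen {z : ℂ | 0 < z.im} := isOpen_upperHalfPlaneSet
  intro w hw
  have hw' : (0 : ℝ) < (-conj w).im := by simpa using hw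
  -- `f₁ u = (F ∘ ofComplex) (-u)` is differentiable at `conj w`
  have h1 : DifferentiableAt ℂ (fun u : ℂ => (F ∘ ofComplex) (-u)) (conj w) := by
    have h2 : DifferentiableAt ℂ (F ∘ ofComplex) (-conj w) :=
      (hF _ hw').differentiableAt (hopen.mem_nhds hw')
    exact h2.comp (conj w) differentiable_neg.differentiableAt
  have h3 := h1.conj_conj
  rw [Complex.conj_conj] at h3
  refine (h3.congr_of_eventuallyEq ?_).differentiableWithinAt
  filter_upwards [hopen.mem_nhds hw] with u hu
  have hu' : (0 : ℝ) < (-conj u).im := by simpa using hu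
  simp only [Function.comp_apply, starFun, ofComplex_apply_of_im_pos hu,
    ofComplex_apply_of_im_pos hu']
  rfl

theorem conj_T_pow_mem_Gamma0 (N : ℕ) (δ : SL(2, ℤ)) :
    δ * ModularGroup.T ^ (N : ℤ) * δ⁻¹ ∈ Gamma0 N := by
  have h1 : ModularGroup.T ^ (N : ℤ) ∈ CongruenceSubgroup.Gamma N := by
    simpa using ModularGroup_T_pow_mem_Gamma (N : ℤ) (N : ℤ) dvd_rfl
  have h2 : δ * ModularGroup.T ^ (N : ℤ) * δ⁻¹ ∈ CongruenceSubgroup.Gamma N :=
    (Gamma_normal N).conj_mem _ h1 δ
  rw [Gamma_mem] at h2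
  rw [Gamma0_mem]
  exact h2.2.2.1

theorem mdiff_sub' {f g : ℍ → ℂ} (hf : MDiff f) (hg : MDiff g) : MDiff (fun z => f z - g z) := by
  rw [UpperHalfPlane.mdifferentiable_iff] at hf hg ⊢
  exact hf.sub hg

theorem mdiff_add' {f g : ℍ → ℂ} (hf : MDiff f) (hg : MDiff g) : MDiff (fun z => f z + g z) := by
  rw [UpperHalfPlane.mdifferentiable_iff] at hf hg ⊢
  exact hf.add hg

theorem mdiff_const_mul' {f : ℍ → ℂ} (hf : MDiff f) (c : ℂ) : MDiff (fun z => c * f z) := by
  rw [UpperHalfPlane.mdifferentiable_iff] at hf ⊢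
  exact hf.const_mul c

theorem starFun_smul_sub {N : ℕ} {F : ℍ → ℂ} (hFeq : IsEquivariantPrimitive (Gamma0 N) F)
    (γ : Gamma0 N) (z : ℍ) :
    starFun F ((γ : SL(2, ℤ)) • z) - starFun F z = conj (hFeq.period (jConjGamma0 N γ)) := by
  have h1 := hFeq.sub_eq_period (jConjGamma0 N γ) (sigmaH z)
  rw [jConjGamma0_coe, jConjSL_smul_sigmaH] at h1
  simp only [starFun]
  rw [← h1, map_sub]

theorem tendsto_starFun_smul {F : ℍ → ℂ} (δ : SL(2, ℤ)) {L : ℂ}
    (hL : Tendsto (fun w : ℍ => F ((jConjSL δ) • w)) atImInfty (𝓝 L)) :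
    Tendsto (fun w : ℍ => starFun F (δ • w)) atImInfty (𝓝 (conj L)) := by
  have h1 : (fun w : ℍ => starFun F (δ • w)) = fun w => conj (F ((jConjSL δ) • (sigmaH w))) := by
    funext w
    simp only [starFun, jConjSL_smul_sigmaH]
  rw [h1]
  exact (Complex.continuous_conj.tendsto L).comp (hL.comp tendsto_sigmaH_atImInfty)

/-- Core lemma: a holomorphic equivariant function with limits at all cusps whose periods are
(anti)symmetric under the involution `j` is constant. -/
theorem const_of_period_symm (N : ℕ) [NeZero N] (F : ℍ → ℂ) (hF : MDiff F)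
    (hFeq : IsEquivariantPrimitive (Gamma0 N) F)
    (hFlim : ∀ δ : SL(2, ℤ), ∃ L : ℂ, Tendsto (fun w : ℍ => F (δ • w)) atImInfty (𝓝 L))
    (s : ℝ) (hs : s * s = 1)
    (hsym : ∀ γ : Gamma0 N, hFeq.period (jConjGamma0 N γ) = s * hFeq.period γ) :
    ∃ C : ℂ, ∀ z : ℍ, F z = C := by
  have hsC : (s : ℂ) * s = 1 := by exact_mod_cast hs
  have hN : 0 < N := Nat.pos_of_ne_zero (NeZero.ne N)
  have hstar : MDiff (starFun F) := mdiff_starFun hF
  -- first function
  obtain ⟨C₁, hC₁⟩ := exists_const_of_im_cocycle (Gamma0 N) N hN (conj_T_pow_mem_Gamma0 N)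
    (fun z => F z - s * starFun F z) (mdiff_sub' hF (mdiff_const_mul' hstar s))
    (by
      intro γ hγ
      refine ⟨2 * (hFeq.period ⟨γ, hγ⟩).im, fun z => ?_⟩
      have h1 := hFeq.sub_eq_period ⟨γ, hγ⟩ z
      have h2 := starFun_smul_sub hFeq ⟨γ, hγ⟩ z
      rw [hsym, map_mul, Complex.conj_ofReal] at h2
      simp only at h1 h2
      have h3 : F (γ • z) - ↑s * starFun F (γ • z) - (F z - ↑s * starFun F z)
          = (F (γ • z) - F z) - s * (starFun F (γ • z) - starFun F z) := by ring
      rw [h3, h1, h2, ← mul_assoc, hsC, one_mul]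
      apply Complex.ext <;> first | (simp; done) | (simp; ring))
    (by
      intro δ
      obtain ⟨L, hL⟩ := hFlim δ
      obtain ⟨L', hL'⟩ := hFlim (jConjSL δ)
      exact ⟨L - s * conj L', hL.sub ((tendsto_starFun_smul δ hL').const_mul _)⟩)
  -- second function
  obtain ⟨C₂, hC₂⟩ := exists_const_of_im_cocycle (Gamma0 N) N hN (conj_T_pow_mem_Gamma0 N)
    (fun z => (-Complex.I) * (F z + s * starFun F z))
    (mdiff_const_mul' (mdiff_add' hF (mdiff_const_mul' hstar s)) _)
    (by
      intro γ hγ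
      refine ⟨-(2 * (hFeq.period ⟨γ, hγ⟩).re), fun z => ?_⟩
      have h1 := hFeq.sub_eq_period ⟨γ, hγ⟩ z
      have h2 := starFun_smul_sub hFeq ⟨γ, hγ⟩ z
      rw [hsym, map_mul, Complex.conj_ofReal] at h2
      simp only at h1 h2
      have h3 : -Complex.I * (F (γ • z) + ↑s * starFun F (γ • z))
            - -Complex.I * (F z + ↑s * starFun F z)
          = -Complex.I * ((F (γ • z) - F z) + s * (starFun F (γ • z) - starFun F z)) := by ring
      rw [h3, h1, h2, ← mul_assoc (s : ℂ), hsC, one_mul]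
      apply Complex.ext <;> first | (simp; done) | (simp; ring))
    (by
      intro δ
      obtain ⟨L, hL⟩ := hFlim δ
      obtain ⟨L', hL'⟩ := hFlim (jConjSL δ)
      exact ⟨-Complex.I * (L + s * conj L'),
        (hL.add ((tendsto_starFun_smul δ hL').const_mul _)).const_mul _⟩)
  refine ⟨(C₁ + Complex.I * C₂) / 2, fun z => ?_⟩
  rw [← hC₁ z, ← hC₂ z]
  have hI : Complex.I * (-Complex.I) = 1 := by rw [mul_neg, Complex.I_mul_I, neg_neg]
  have : Complex.I * (-Complex.I * (F z + ↑s * starFun F z)) = F z + ↑s * starFun F z := by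
    rw [← mul_assoc, hI, one_mul]
  rw [this]
  ring

/-- A cusp form with a constant primitive vanishes. -/
theorem eq_zero_of_primitive_const {N : ℕ} (f : CuspForm (Gamma0 N) 2) (F : ℍ → ℂ)
    (hFd : ∀ τ : ℍ, HasDerivAt (F ∘ ofComplex) (f τ) ↑τ) {C : ℂ} (hC : ∀ z : ℍ, F z = C) :
    f = 0 := by
  ext τ
  have h1 : (F ∘ ofComplex) =ᶠ[𝓝 (τ : ℂ)] fun _ => C := by
    filter_upwards with w
    exact hC _
  have h2 : HasDerivAt (F ∘ ofComplex) 0 (τ : ℂ) :=
    (hasDerivAt_const (τ : ℂ) C).congr_of_eventuallyEq h1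
  exact (hFd τ).unique h2

/-- The primitive in `HasEquivariantPrimitive` is holomorphic. -/
theorem mdiff_of_hasEquivariantPrimitive {N : ℕ} {f : CuspForm (Gamma0 N) 2} {F : ℍ → ℂ}
    (hF : HasEquivariantPrimitive N f F) : MDiff F := by
  rw [UpperHalfPlane.mdifferentiable_iff]
  intro z hz
  have := hF.1 ⟨z, hz⟩
  exact this.differentiableAt.differentiableWithinAt

/-- If the periods of a primitive of `f` are (anti)symmetric under `j`, then `f = 0`. -/
theorem eq_zero_of_period_symm (N : ℕ) [NeZero N] (f : CuspForm (Gamma0 N) 2) (F : ℍ → ℂ)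
    (hF : HasEquivariantPrimitive N f F) (s : ℝ) (hs : s * s = 1)
    (hsym : ∀ γ : Gamma0 N, hF.2.2.1.period (jConjGamma0 N γ) = s * hF.2.2.1.period γ) :
    f = 0 := by
  obtain ⟨C, hC⟩ := const_of_period_symm N F (mdiff_of_hasEquivariantPrimitive hF) hF.2.2.1
    hF.2.2.2 s hs hsym
  exact eq_zero_of_primitive_const f F hF.1 hC

/-- If `(1 + ι) (periodMap N f) = 0` then `f = 0`. -/
theorem eq_zero_of_periodMap_add (N : ℕ) [NeZero N] (f : CuspForm (Gamma0 N) 2)
    (hex : ∃ F, HasEquivariantPrimitive N f F)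
    (h : periodMap N f + charInvolution N ℂ ℂ (periodMap N f) = 0) : f = 0 := by
  obtain ⟨F, hF⟩ := hex
  obtain ⟨F₀, h₀, hP⟩ := periodMap_def N f hF
  refine eq_zero_of_period_symm N f F₀ h₀ (-1) (by norm_num) (fun γ => ?_)
  have h1 := DFunLike.congr_fun h (Additive.ofMul γ)
  rw [hP] at h1
  simp only [AddMonoidHom.add_apply, charInvolution_apply, toMul_ofMul,
    IsEquivariantPrimitive.periodHom_apply, AddMonoidHom.zero_apply] at h1
  push_cast
  linear_combination h1

/-- If `(1 - ι) (periodMap N f) = 0` then `f = 0`. -/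
theorem eq_zero_of_periodMap_sub (N : ℕ) [NeZero N] (f : CuspForm (Gamma0 N) 2)
    (hex : ∃ F, HasEquivariantPrimitive N f F)
    (h : periodMap N f - charInvolution N ℂ ℂ (periodMap N f) = 0) : f = 0 := by
  obtain ⟨F, hF⟩ := hex
  obtain ⟨F₀, h₀, hP⟩ := periodMap_def N f hF
  refine eq_zero_of_period_symm N f F₀ h₀ 1 (by norm_num) (fun γ => ?_)
  have h1 := DFunLike.congr_fun h (Additive.ofMul γ)
  rw [hP] at h1
  simp only [AddMonoidHom.sub_apply, charInvolution_apply, toMul_ofMul,
    IsEquivariantPrimitive.periodHom_apply, AddMonoidHom.zero_apply] at h1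
  push_cast
  linear_combination -h1

/-- **P3 (injectivity of the Eichler–Shimura pair map)**, assuming linearity of the period map
and existence of equivariant primitives. -/
theorem periodHomPair_injective_of (N : ℕ) [NeZero N] (hlin : ExistsPeriodMapLinear N)
    (hex : ∀ f : CuspForm (Gamma0 N) 2, ∃ F, HasEquivariantPrimitive N f F) :
    Function.Injective (periodHomPair N) := by
  obtain ⟨pml, hpml, hpair⟩ := periodHomPair_def N hlin
  rw [← LinearMap.ker_eq_bot, LinearMap.ker_eq_bot']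
  rintro ⟨f, g⟩ hfg
  rw [hpair] at hfg
  simp only [LinearMap.coprod_apply, LinearMap.comp_apply, LinearMap.add_apply,
    LinearMap.sub_apply, LinearMap.id_apply, hpml] at hfg
  -- apply the involution
  have hfg' := congrArg (charInvolution N ℂ ℂ) hfg
  simp only [map_add, map_sub, charInvolution_charInvolution, map_zero] at hfg'
  have hf : periodMap N f + charInvolution N ℂ ℂ (periodMap N f) = 0 := by
    have h2 : (2 : ℂ) • (periodMap N f + charInvolution N ℂ ℂ (periodMap N f)) = 0 := by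
      rw [two_smul]
      have := congrArg₂ (· + ·) hfg hfg'
      simp only [add_zero] at this
      rw [← this]
      abel
    exact (smul_eq_zero.mp h2).resolve_left two_ne_zero
  have hg : periodMap N g - charInvolution N ℂ ℂ (periodMap N g) = 0 := by
    have h2 : (2 : ℂ) • (periodMap N g - charInvolution N ℂ ℂ (periodMap N g)) = 0 := by
      rw [two_smul]
      have := congrArg₂ (· - ·) hfg hfg'
      simp only [sub_zero] at this
      rw [← this]
      abel
    exact (smul_eq_zero.mp h2).resolve_left two_ne_zero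
  rw [eq_zero_of_periodMap_add N f (hex f) hf, eq_zero_of_periodMap_sub N g (hex g) hg]
  rfl

end Fermat.Agent.S21.P.Inject
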