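import Mathlib
import Fermat.Prelude.Def_ModularCurve_PeriodHomPair
import Fermat.Agent.S22.CuspAll
import Fermat.Agent.S22.Period

/-!
# Project ES, WP-P (a), (b): the canonical primitive of a weight two cusp form, uniqueness,
and linearity of the period map (helper73)

* `canonPrim N f` : the primitive of `f` vanishing at `i∞`;
* `hasEquivariantPrimitive_canonPrim` : it satisfies `ModularCurve.HasEquivariantPrimitive`;
* `periodMap_apply` : `periodMap N f γ = canonPrim N f (γ • z) - canonPrim N f z`;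
* `existsPeriodMapLinear` : **P1**.
-/

set_option autoImplicit false

open UpperHalfPlane hiding I
open Complex Filter Function Topology
open scoped Manifold MatrixGroups ModularForm Real
open ModularCurve ModularCurve.Period CongruenceSubgroup
open Fermat.Agent.S22

namespace Fermat.Agent.S21.P

noncomputable section

local notation "𝔻" => Derivative.normalizedDerivOfComplex

/-- Every `SL(2, ℤ)`-translate of a weight two cusp form on `Γ₀(N)` is cusp-like. -/
lemma isCuspLike_slash (N : ℕ) [NeZero N] (f : CuspForm (Gamma0 N) 2) (δ : SL(2, ℤ)) :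
    IsCuspLike (⇑f ∣[(2 : ℤ)] δ) :=
  cuspForm_slash_SL_isCuspLike N 2 f δ

lemma isCuspLike_coe (N : ℕ) [NeZero N] (f : CuspForm (Gamma0 N) 2) : IsCuspLike ⇑f := by
  have := isCuspLike_slash N f 1
  simpa using this

/-- weight zero slash by `SL(2, ℤ)` is composition with the Möbius action -/
lemma slash_zero_apply (F : ℍ → ℂ) (δ : SL(2, ℤ)) (z : ℍ) : (F ∣[(0 : ℤ)] δ) z = F (δ • z) := by
  rw [ModularForm.SL_slash_apply]
  simp

/-- chain rule: the normalised derivative of `F ∘ δ` is `(𝔻 F) ∣[2] δ`. -/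
lemma normalizedDeriv_slash_zero {F : ℍ → ℂ} (hF : MDiff F) (δ : SL(2, ℤ)) :
    𝔻 (F ∣[(0 : ℤ)] δ) = (𝔻 F) ∣[(2 : ℤ)] δ := by
  have h := iterate_normalizedDeriv_wslash 0 hF (g := Matrix.SpecialLinearGroup.mapGL ℝ δ)
    (IsIntPos.mapGL δ).1
  rw [wslash_mapGL'] at h
  simp only [zero_add, Function.iterate_one, Nat.cast_zero] at h
  exact h
where
  wslash_mapGL' : wslash 0 F (Matrix.SpecialLinearGroup.mapGL ℝ δ) =
      F ∣[(0 : ℤ)] (Matrix.SpecialLinearGroup.mapGL ℝ δ) := by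
    have hdet : ((Matrix.SpecialLinearGroup.mapGL ℝ δ : GL (Fin 2) ℝ) :
        Matrix (Fin 2) (Fin 2) ℝ).det = 1 := by
      rw [← Matrix.GeneralLinearGroup.val_det_apply]; simp
    rw [wslash, hdet]
    simp

/-- **Key lemma.** `prim f ∘ δ` and `prim (f ∣[2] δ)` differ by a constant. -/
lemma exists_const_prim_slash (N : ℕ) [NeZero N] (f : CuspForm (Gamma0 N) 2) (δ : SL(2, ℤ)) :
    ∃ c : ℂ, ∀ z : ℍ, prim ⇑f (δ • z) - prim (⇑f ∣[(2 : ℤ)] δ) z = c := by
  have hf := isCuspLike_coe N f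
  have hfδ := isCuspLike_slash N f δ
  have h1 : MDiff (prim ⇑f ∣[(0 : ℤ)] δ) := (prim_isCuspLike hf).holo.slash 0 _
  have h2 : MDiff (prim (⇑f ∣[(2 : ℤ)] δ)) := (prim_isCuspLike hfδ).holo
  have hD : 𝔻 ((prim ⇑f ∣[(0 : ℤ)] δ) - prim (⇑f ∣[(2 : ℤ)] δ)) = 0 := by
    rw [Derivative.normalizedDerivOfComplex_sub _ _ h1 h2,
      normalizedDeriv_slash_zero (prim_isCuspLike hf).holo, normalizedDeriv_prim hf,
      normalizedDeriv_prim hfδ, sub_self]
  obtain ⟨c, hc⟩ := exists_const_of_normalizedDeriv_eq_zero (h1.sub h2) hD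
  refine ⟨c, fun z => ?_⟩
  have := hc z
  simpa [slash_zero_apply] using this

/-- The canonical primitive of a weight two cusp form: `F' = f`, `F → 0` at `i∞`. -/
def canonPrim (N : ℕ) (f : CuspForm (Gamma0 N) 2) : ℍ → ℂ :=
  fun z => (2 * π * I)⁻¹ * prim ⇑f z

lemma canonPrim_hasDerivAt (N : ℕ) [NeZero N] (f : CuspForm (Gamma0 N) 2) (τ : ℍ) :
    HasDerivAt (canonPrim N f ∘ ofComplex) (f τ) (τ : ℂ) := by
  have hf := isCuspLike_coe N f
  have h := hasDerivAt_of_mdiff (prim_isCuspLike hf).holo τ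
  rw [normalizedDeriv_prim hf] at h
  have h2 := h.const_mul ((2 * π * I)⁻¹)
  have e : (2 * π * I)⁻¹ * (2 * π * I * f τ) = f τ := by
    field_simp
  rw [e] at h2
  exact h2

lemma canonPrim_mdiff (N : ℕ) [NeZero N] (f : CuspForm (Gamma0 N) 2) : MDiff (canonPrim N f) :=
  fun τ => UpperHalfPlane.mdifferentiableAt_iff.mpr (canonPrim_hasDerivAt N f τ).differentiableAt

lemma canonPrim_tendsto_zero (N : ℕ) [NeZero N] (f : CuspForm (Gamma0 N) 2) :
    Tendsto (canonPrim N f) atImInfty (𝓝 0) := by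
  have hf := isCuspLike_coe N f
  have h : Tendsto (prim ⇑f) atImInfty (𝓝 0) := (prim_isCuspLike hf).zero
  have := h.const_mul ((2 * π * I)⁻¹)
  rw [mul_zero] at this
  exact this

/-- `canonPrim f ∘ δ = const + canonPrim`-like function attached to `f ∣[2] δ`. -/
lemma exists_const_canonPrim_smul (N : ℕ) [NeZero N] (f : CuspForm (Gamma0 N) 2) (δ : SL(2, ℤ)) :
    ∃ c : ℂ, ∀ z : ℍ,
      canonPrim N f (δ • z) = c + (2 * π * I)⁻¹ * prim (⇑f ∣[(2 : ℤ)] δ) z := by
  obtain ⟨c, hc⟩ := exists_const_prim_slash N f δ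
  refine ⟨(2 * π * I)⁻¹ * c, fun z => ?_⟩
  rw [← hc z, canonPrim]
  ring

lemma canonPrim_isEquivariantPrimitive (N : ℕ) [NeZero N] (f : CuspForm (Gamma0 N) 2) :
    IsEquivariantPrimitive (Gamma0 N) (canonPrim N f) := by
  intro γ
  obtain ⟨c, hc⟩ := exists_const_canonPrim_smul N f (γ : SL(2, ℤ))
  have hinv : ⇑f ∣[(2 : ℤ)] (γ : SL(2, ℤ)) = ⇑f :=
    SlashInvariantFormClass.slash_action_eq f
      (Matrix.SpecialLinearGroup.mapGL ℝ (γ : SL(2, ℤ))) (Subgroup.mem_map_of_mem _ γ.2)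
  refine ⟨c, fun z => ?_⟩
  rw [hc z, hinv, canonPrim]
  ring

lemma canonPrim_tendsto_smul (N : ℕ) [NeZero N] (f : CuspForm (Gamma0 N) 2) (δ : SL(2, ℤ)) :
    ∃ L : ℂ, Tendsto (fun w : ℍ => canonPrim N f (δ • w)) atImInfty (𝓝 L) := by
  obtain ⟨c, hc⟩ := exists_const_canonPrim_smul N f δ
  refine ⟨c, ?_⟩
  have hfδ := isCuspLike_slash N f δ
  have h : Tendsto (prim (⇑f ∣[(2 : ℤ)] δ)) atImInfty (𝓝 0) := (prim_isCuspLike hfδ).zero
  have h2 := (h.const_mul ((2 * π * I)⁻¹)).const_add c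
  simp only [mul_zero, add_zero] at h2
  refine h2.congr fun w => ?_
  rw [hc w]

/-- **P-a.** -/
theorem hasEquivariantPrimitive_canonPrim (N : ℕ) [NeZero N] (f : CuspForm (Gamma0 N) 2) :
    HasEquivariantPrimitive N f (canonPrim N f) :=
  ⟨canonPrim_hasDerivAt N f, canonPrim_tendsto_zero N f, canonPrim_isEquivariantPrimitive N f,
    canonPrim_tendsto_smul N f⟩

/-- **P-b (uniqueness).** -/
theorem eq_canonPrim (N : ℕ) [NeZero N] (f : CuspForm (Gamma0 N) 2) {F : ℍ → ℂ}
    (hF : HasEquivariantPrimitive N f F) : F = canonPrim N f := by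
  have hFm : MDiff F :=
    fun τ => UpperHalfPlane.mdifferentiableAt_iff.mpr (hF.1 τ).differentiableAt
  have hD : 𝔻 F = 𝔻 (canonPrim N f) := by
    ext τ
    rw [normalizedDeriv_eq_of_hasDerivAt (hF.1 τ),
      normalizedDeriv_eq_of_hasDerivAt (canonPrim_hasDerivAt N f τ)]
  exact eq_of_normalizedDeriv_eq hFm (canonPrim_mdiff N f) hD hF.2.1 (canonPrim_tendsto_zero N f)

theorem periodMap_apply' (N : ℕ) [NeZero N] (f : CuspForm (Gamma0 N) 2) (γ : Gamma0 N) :
    periodMap N f (Additive.ofMul γ) =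
      canonPrim N f ((γ : SL(2, ℤ)) • UpperHalfPlane.I) - canonPrim N f UpperHalfPlane.I := by
  obtain ⟨F₀, h₀, h⟩ := periodMap_def N f (hasEquivariantPrimitive_canonPrim N f)
  rw [h]
  have e := eq_canonPrim N f h₀
  subst e
  rfl

/-- the period is the increment of the canonical primitive at any base point -/
theorem periodMap_apply (N : ℕ) [NeZero N] (f : CuspForm (Gamma0 N) 2) (γ : Gamma0 N) (z : ℍ) :
    periodMap N f (Additive.ofMul γ) =
      canonPrim N f ((γ : SL(2, ℤ)) • z) - canonPrim N f z := by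
  rw [periodMap_apply']
  have h := canonPrim_isEquivariantPrimitive N f
  rw [h.sub_eq_period γ z]
  rfl

lemma canonPrim_add (N : ℕ) [NeZero N] (f g : CuspForm (Gamma0 N) 2) :
    canonPrim N (f + g) = canonPrim N f + canonPrim N g := by
  ext z
  simp only [canonPrim, Pi.add_apply]
  rw [show (⇑(f + g) : ℍ → ℂ) = ⇑f + ⇑g from rfl, prim_add (isCuspLike_coe N f) (isCuspLike_coe N g)]
  simp only [Pi.add_apply]
  ring

lemma canonPrim_smul (N : ℕ) [NeZero N] (c : ℂ) (f : CuspForm (Gamma0 N) 2) :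
    canonPrim N (c • f) = c • canonPrim N f := by
  ext z
  simp only [canonPrim, Pi.smul_apply, smul_eq_mul]
  rw [show (⇑(c • f) : ℍ → ℂ) = c • ⇑f from rfl, prim_smul (isCuspLike_coe N f)]
  simp only [Pi.smul_apply, smul_eq_mul]
  ring

/-- The period map as a linear map. -/
def periodMapLinear (N : ℕ) [NeZero N] :
    CuspForm (Gamma0 N) 2 →ₗ[ℂ] (Additive (Gamma0 N) →+ ℂ) where
  toFun f := periodMap N f
  map_add' f g := by
    refine AddMonoidHom.ext fun γ => ?_
    obtain ⟨γ, rfl⟩ := Additive.ofMul.surjective γ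
    rw [AddMonoidHom.add_apply, periodMap_apply', periodMap_apply', periodMap_apply',
      canonPrim_add]
    simp only [Pi.add_apply]
    ring
  map_smul' c f := by
    refine AddMonoidHom.ext fun γ => ?_
    obtain ⟨γ, rfl⟩ := Additive.ofMul.surjective γ
    rw [RingHom.id_apply, AddMonoidHom.smul_apply, periodMap_apply', periodMap_apply',
      canonPrim_smul]
    simp only [Pi.smul_apply, smul_eq_mul]
    ring

@[simp] lemma periodMapLinear_apply (N : ℕ) [NeZero N] (f : CuspForm (Gamma0 N) 2) :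
    periodMapLinear N f = periodMap N f := rfl

/-- **P1.** -/
theorem existsPeriodMapLinear (N : ℕ) [NeZero N] : ExistsPeriodMapLinear N :=
  ⟨periodMapLinear N, fun _ => rfl⟩

end

end Fermat.Agent.S21.P
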