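import Mathlib
import Fermat.Agent.S21.P.Prim

/-!
# Project ES, WP-P (c): periods of cusp forms vanish on parabolic elements (helper73)

* `exists_conj_upper` : an element of `SL(2, ℤ)` with `trace ^ 2 = 4` is conjugate in `SL(2, ℤ)`
  to an upper triangular matrix;
* `periodMap_mem_parabolicHoms` : **P2**.
-/

set_option autoImplicit false

open UpperHalfPlane hiding I
open Complex Filter Function Topology
open scoped Manifold MatrixGroups ModularForm Real
open ModularCurve ModularCurve.Period CongruenceSubgroup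
open Fermat.Agent.S22

namespace Fermat.Agent.S21.P

noncomputable section

/-- An element of `SL(2, ℤ)` of trace `±2` has a primitive integral eigenvector, hence is
conjugate in `SL(2, ℤ)` to an upper triangular matrix. -/
theorem exists_conj_upper (γ : SL(2, ℤ))
    (hγ : (γ : Matrix (Fin 2) (Fin 2) ℤ).trace ^ 2 = 4) :
    ∃ δ : SL(2, ℤ), (δ⁻¹ * γ * δ) 1 0 = 0 := by
  have hdet : γ 0 0 * γ 1 1 - γ 0 1 * γ 1 0 = 1 := by
    have := γ.det_coe
    rw [Matrix.det_fin_two] at this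
    exact this
  have htr : γ 0 0 + γ 1 1 = 2 ∨ γ 0 0 + γ 1 1 = -2 := by
    rw [Matrix.trace_fin_two] at hγ
    have h : (γ 0 0 + γ 1 1 - 2) * (γ 0 0 + γ 1 1 + 2) = 0 := by
      have : ((γ : Matrix (Fin 2) (Fin 2) ℤ) 0 0 + (γ : Matrix (Fin 2) (Fin 2) ℤ) 1 1) ^ 2 = 4 := hγ
      linear_combination this
    rcases mul_eq_zero.mp h with h | h
    · left; linarith
    · right; linarith
  by_cases hc : γ 1 0 = 0
  · exact ⟨1, by simpa using hc⟩
  -- the eigenvalue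
  obtain ⟨ε, hε, hε2⟩ : ∃ ε : ℤ, γ 0 0 + γ 1 1 = 2 * ε ∧ ε * ε = 1 := by
    rcases htr with h | h
    · exact ⟨1, by rw [h]; norm_num, by norm_num⟩
    · exact ⟨-1, by rw [h]; norm_num, by norm_num⟩
  -- the eigenvector `(x, y)`
  obtain ⟨x, hx⟩ : ∃ x : ℤ, x = ε - γ 1 1 := ⟨_, rfl⟩
  obtain ⟨y, hy⟩ : ∃ y : ℤ, y = γ 1 0 := ⟨_, rfl⟩
  have hy0 : y ≠ 0 := by rw [hy]; exact hc
  have hgpos : 0 < Int.gcd x y := Int.gcd_pos_of_ne_zero_right x hy0
  have hg0 : (Int.gcd x y : ℤ) ≠ 0 := by exact_mod_cast hgpos.ne'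
  obtain ⟨p, hp⟩ : ∃ p : ℤ, p = x / (Int.gcd x y : ℤ) := ⟨_, rfl⟩
  obtain ⟨q, hq⟩ : ∃ q : ℤ, q = y / (Int.gcd x y : ℤ) := ⟨_, rfl⟩
  obtain ⟨g, hg⟩ : ∃ g : ℤ, g = (Int.gcd x y : ℤ) := ⟨_, rfl⟩
  have hg0' : g ≠ 0 := by rw [hg]; exact hg0
  have hxp : x = g * p := by
    rw [hg, hp, Int.mul_ediv_cancel' (Int.gcd_dvd_left x y)]
  have hyq : y = g * q := by
    rw [hg, hq, Int.mul_ediv_cancel' (Int.gcd_dvd_right x y)]
  have hcop : IsCoprime p q := by
    rw [Int.isCoprime_iff_gcd_eq_one, hp, hq]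
    exact Int.gcd_div_gcd_div_gcd hgpos
  obtain ⟨δ, hδ0, hδ1⟩ := hcop.exists_SL2_col 0
  refine ⟨δ, ?_⟩
  -- eigenvector equations
  have e1 : γ 0 0 * x + γ 0 1 * y = ε * x := by
    rw [hx, hy]
    linear_combination ε * hε + hε2 - hdet
  have e2 : γ 1 0 * x + γ 1 1 * y = ε * y := by
    rw [hx, hy]; ring
  have e1' : γ 0 0 * p + γ 0 1 * q = ε * p := by
    apply mul_left_cancel₀ hg0'
    have := e1
    rw [hxp, hyq] at this
    linear_combination this
  have e2' : γ 1 0 * p + γ 1 1 * q = ε * q := by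
    apply mul_left_cancel₀ hg0'
    have := e2
    rw [hxp, hyq] at this
    linear_combination this
  have hinv : ((δ⁻¹ : SL(2, ℤ)) : Matrix (Fin 2) (Fin 2) ℤ) =
      !![δ 1 1, -δ 0 1; -δ 1 0, δ 0 0] := by
    rw [Matrix.SpecialLinearGroup.coe_inv, Matrix.adjugate_fin_two]
  show ((δ⁻¹ * γ * δ : SL(2, ℤ)) : Matrix (Fin 2) (Fin 2) ℤ) 1 0 = 0
  rw [Matrix.SpecialLinearGroup.coe_mul, Matrix.SpecialLinearGroup.coe_mul, hinv]
  simp only [Matrix.mul_apply, Fin.sum_univ_two, Matrix.of_apply, Matrix.cons_val_zero,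
    Matrix.cons_val_one, Matrix.cons_val', Matrix.empty_val', Matrix.cons_val_fin_one]
  have hδ0' : (δ : Matrix (Fin 2) (Fin 2) ℤ) 0 0 = p := hδ0
  have hδ1' : (δ : Matrix (Fin 2) (Fin 2) ℤ) 1 0 = q := hδ1
  rw [hδ0', hδ1']
  linear_combination p * e2' - q * e1'

/-- **P2.** Periods of weight two cusp forms are parabolic homomorphisms. -/
theorem periodMap_mem_parabolicHoms (N : ℕ) [NeZero N] (f : CuspForm (Gamma0 N) 2) :
    periodMap N f ∈ parabolicHoms ℂ (Gamma0 N) ℂ := by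
  rw [mem_parabolicHoms_iff]
  intro γ hγ
  obtain ⟨δ, hδ⟩ := exists_conj_upper (γ : SL(2, ℤ)) hγ
  obtain ⟨m, hm⟩ := ModularGroup.exists_eq_T_zpow_of_c_eq_zero hδ
  have key : ∀ w : ℍ, (γ : SL(2, ℤ)) • (δ • w) = δ • ((m : ℝ) +ᵥ w) := by
    intro w
    have h := hm w
    rw [UpperHalfPlane.modular_T_zpow_smul] at h
    rw [← h, ← mul_smul, ← mul_smul]
    congr 1
    group
  set P : ℂ := periodMap N f (Additive.ofMul γ) with hPdef
  have hP : ∀ z : ℍ, canonPrim N f ((γ : SL(2, ℤ)) • z) = canonPrim N f z + P := by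
    intro z
    rw [hPdef, periodMap_apply N f γ z]
    ring
  obtain ⟨c, hc⟩ := exists_const_canonPrim_smul N f δ
  obtain ⟨n, hn, hper⟩ := (prim_isCuspLike (isCuspLike_slash N f δ)).per
  -- telescoping
  have hind : ∀ (k : ℕ) (w : ℍ),
      canonPrim N f (δ • (((k : ℝ) * (m : ℝ)) +ᵥ w)) = canonPrim N f (δ • w) + k * P := by
    intro k
    induction k with
    | zero =>
      intro w
      simp
    | succ k ih =>
      intro w
      have e : ((((k + 1 : ℕ) : ℝ) * (m : ℝ)) +ᵥ w) = (m : ℝ) +ᵥ (((k : ℝ) * (m : ℝ)) +ᵥ w) := by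
        rw [vadd_vadd]
        congr 1
        push_cast
        ring
      rw [e, ← key, hP, ih]
      push_cast
      ring
  have h1 := hind n UpperHalfPlane.I
  rw [hc, hc] at h1
  have h2 : prim (⇑f ∣[(2 : ℤ)] δ) ((((n : ℝ) * (m : ℝ)) +ᵥ UpperHalfPlane.I))
      = prim (⇑f ∣[(2 : ℤ)] δ) UpperHalfPlane.I := by
    refine eq_of_coe_eq_add_int_mul hper m ?_
    rw [UpperHalfPlane.coe_vadd]
    push_cast
    ring
  rw [h2] at h1
  have h3 : (n : ℂ) * P = 0 := by linear_combination -h1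
  rcases mul_eq_zero.mp h3 with h | h
  · exact absurd (by exact_mod_cast h : n = 0) hn.ne'
  · exact h

end

end Fermat.Agent.S21.P
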