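import Mathlib
import Fermat.Agent.S21.P.Prim
import Fermat.Agent.S21.P.Parabolic
import Fermat.Agent.S21.P.Inject

/-!
# Project ES, WP-P: the three period lemmas, with the exact interface statements
(`Fermat/Agent/S21/Interfaces.lean`): P1 `existsPeriodMapLinear`, P2 `periodMap_mem_parabolicHoms`
(both in `P/Prim.lean`, `P/Parabolic.lean`, helper73) and P3 `periodHomPair_injective`
(from `P/Inject.lean`, helper54).
-/

set_option autoImplicit false

open ModularCurve ModularCurve.Period CongruenceSubgroup

namespace Fermat.Agent.S21.P

/-- **P3.** Injectivity of the Eichler-Shimura pair map. -/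
theorem periodHomPair_injective (N : ℕ) [NeZero N] : Function.Injective (periodHomPair N) :=
  Inject.periodHomPair_injective_of N (existsPeriodMapLinear N)
    (fun f => ⟨_, hasEquivariantPrimitive_canonPrim N f⟩)

/-- WP-P, all three statements at once. -/
theorem wp_P (N : ℕ) [NeZero N] :
    ExistsPeriodMapLinear N ∧
      (∀ f : CuspForm (Gamma0 N) 2, periodMap N f ∈ parabolicHoms ℂ (Gamma0 N) ℂ) ∧
      Function.Injective (periodHomPair N) :=
  ⟨existsPeriodMapLinear N, periodMap_mem_parabolicHoms N, periodHomPair_injective N⟩

end Fermat.Agent.S21.P
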