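import Mathlib
import Fermat.Agent.S21.P.Prim
import Fermat.Agent.S21.P.Inject

/-!
# Project ES, P3: the Eichler–Shimura pair map is injective (unconditional)
-/

set_option autoImplicit false

open CongruenceSubgroup ModularCurve

namespace Fermat.Agent.S21.P.Inject

/-- **P3**: injectivity of the Eichler–Shimura pair map. -/
theorem periodHomPair_injective (N : ℕ) [NeZero N] :
    Function.Injective (ModularCurve.periodHomPair N) :=
  periodHomPair_injective_of N (Fermat.Agent.S21.P.existsPeriodMapLinear N)
    (fun f => ⟨_, Fermat.Agent.S21.P.hasEquivariantPrimitive_canonPrim N f⟩)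

end Fermat.Agent.S21.P.Inject
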